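/-
P-S58 rows 1099 (S58-EDIV) and 1100 (S58-ECARD), helper10.

* `torsionCardU : TorsionCardStatement`  (`#E[p] = p²` over `ℚ̄`, odd `p`), unconditional;
* `exactOrderU : ExactOrderStatement`  (points of exact order `lam ^ k` exist), unconditional;
* the row shapes `torsionCard (hMult)`, `exactOrder (hMult)`.

Both are short corollaries of helper74's `Fermat.Agent.H74.DivGen.card_torsionBy` and
`Fermat.Agent.H74.DivGen.exists_nsmul_eq`.
-/
import Fermat.Agent.H51.S58.Interfaces2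
import Fermat.Agent.H74.DivGen.Count

set_option autoImplicit false

noncomputable section

namespace Fermat.Agent.H10.S58

open WeierstrassCurve Fermat.Agent.H51.S58

/-- The discriminant of the base change to `ℚ̄` of an integral model with `Δ ≠ 0`. -/
theorem ec_Δ_ne_zero (W : WeierstrassCurve ℤ) (hΔ : W.Δ ≠ 0) :
    ((W.map (Int.castRingHom ℚ))⁄(AlgebraicClosure ℚ)).Δ ≠ 0 := by
  have h1 : ((W.map (Int.castRingHom ℚ))⁄(AlgebraicClosure ℚ)).Δ =
      algebraMap ℚ (AlgebraicClosure ℚ) ((Int.castRingHom ℚ) W.Δ) := by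
    simp [WeierstrassCurve.baseChange, WeierstrassCurve.map_Δ]
  rw [h1]
  intro h0
  have h2 : (Int.castRingHom ℚ) W.Δ = 0 :=
    (algebraMap ℚ (AlgebraicClosure ℚ)).injective (by rw [h0, map_zero])
  rw [eq_intCast] at h2
  exact hΔ (Int.cast_eq_zero.mp h2)

/-- `#E[n] = n²` over `ℚ̄` for every `n ≥ 1`. -/
theorem ec_card_torsionBy (W : WeierstrassCurve ℤ) (hΔ : W.Δ ≠ 0) {n : ℕ} (hn : 1 ≤ n) :
    Nat.card (Submodule.torsionBy ℤ (EPt W) (n : ℤ)) = n ^ 2 := by
  classical
  have h2 : (2 : AlgebraicClosure ℚ) ≠ 0 := two_ne_zero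
  have hnK : ((n : ℕ) : AlgebraicClosure ℚ) ≠ 0 := by
    exact_mod_cast (by omega : n ≠ 0)
  exact Fermat.Agent.H74.DivGen.card_torsionBy h2 (ec_Δ_ne_zero W hΔ) hn hnK

/-- `[n]` is surjective on `E(ℚ̄)`. -/
theorem ec_exists_nsmul_eq (W : WeierstrassCurve ℤ) (hΔ : W.Δ ≠ 0) {n : ℕ} (hn : 1 ≤ n)
    (Q : EPt W) : ∃ P : EPt W, n • P = Q := by
  classical
  have h2 : (2 : AlgebraicClosure ℚ) ≠ 0 := two_ne_zero
  exact Fermat.Agent.H74.DivGen.exists_nsmul_eq h2 (ec_Δ_ne_zero W hΔ) hn Q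

/-- **E-CARD**, unconditional (every prime, in fact). -/
theorem torsionCardU : TorsionCardStatement := by
  intro W hΔ p hp _
  have h := ec_card_torsionBy W hΔ (n := p) hp.one_le
  exact h

/-- **E-CARD** in the shape of row 1100. -/
theorem torsionCard (_hMult : MultFormulaStatement) : TorsionCardStatement :=
  torsionCardU

/-- A point of order `lam` exists. -/
theorem ec_exists_order_prime (W : WeierstrassCurve ℤ) (hΔ : W.Δ ≠ 0) {lam : ℕ}
    (hlam : lam.Prime) : ∃ P : EPt W, addOrderOf P = lam := by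
  have hcard := ec_card_torsionBy W hΔ (n := lam) hlam.one_le
  have hgt : 1 < Nat.card (Submodule.torsionBy ℤ (EPt W) (lam : ℤ)) := by
    rw [hcard]
    exact Nat.one_lt_pow (by norm_num) hlam.one_lt
  have : Finite (Submodule.torsionBy ℤ (EPt W) (lam : ℤ)) :=
    Nat.finite_of_card_ne_zero (by omega)
  obtain ⟨x, y, hxy⟩ := Finite.one_lt_card_iff_nontrivial.mp hgt
  obtain ⟨z, hz⟩ : ∃ z : Submodule.torsionBy ℤ (EPt W) (lam : ℤ), z ≠ 0 := by
    by_cases hx : x = 0
    · exact ⟨y, fun hy => hxy (by rw [hx, hy])⟩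
    · exact ⟨x, hx⟩
  refine ⟨(z : EPt W), ?_⟩
  have hz0 : (z : EPt W) ≠ 0 := fun h => hz (Subtype.ext h)
  have hzt : lam • (z : EPt W) = 0 := by
    have := z.2
    rw [Submodule.mem_torsionBy_iff] at this
    simp only [natCast_zsmul] at this
    exact this
  have hdvd : addOrderOf (z : EPt W) ∣ lam := addOrderOf_dvd_of_nsmul_eq_zero hzt
  rcases (Nat.dvd_prime hlam).mp hdvd with h1 | h1
  · exact absurd (AddMonoid.addOrderOf_eq_one_iff.mp h1) hz0
  · exact h1

/-- A point of order `lam ^ (k + 1)` exists. -/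
theorem ec_exists_order_pow (W : WeierstrassCurve ℤ) (hΔ : W.Δ ≠ 0) {lam : ℕ}
    (hlam : lam.Prime) (k : ℕ) : ∃ P : EPt W, addOrderOf P = lam ^ (k + 1) := by
  induction k with
  | zero =>
    obtain ⟨P, hP⟩ := ec_exists_order_prime W hΔ hlam
    exact ⟨P, by rw [hP]; simp⟩
  | succ k ih =>
    obtain ⟨P, hP⟩ := ih
    obtain ⟨Q, hQ⟩ := ec_exists_nsmul_eq W hΔ hlam.one_le P
    refine ⟨Q, ?_⟩
    have hQ0 : lam ^ (k + 2) • Q = 0 := by
      rw [pow_succ, mul_smul, hQ, ← hP]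
      exact addOrderOf_nsmul_eq_zero P
    have hdvd : addOrderOf Q ∣ lam ^ (k + 2) := addOrderOf_dvd_of_nsmul_eq_zero hQ0
    obtain ⟨j, hj, hjeq⟩ := (Nat.dvd_prime_pow hlam).mp hdvd
    rcases Nat.lt_or_ge j (k + 2) with hlt | hge
    · -- then `lam ^ (k + 1) • Q = 0`, so `lam ^ k • P = 0`
      exfalso
      have h1 : lam ^ (k + 1) • Q = 0 := by
        have hd : addOrderOf Q ∣ lam ^ (k + 1) := by
          rw [hjeq]
          exact pow_dvd_pow lam (by omega)
        exact addOrderOf_dvd_iff_nsmul_eq_zero.mp hd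
      have h2 : lam ^ k • P = 0 := by
        rw [← hQ, ← mul_smul, ← pow_succ]
        exact h1
      have h3 : lam ^ (k + 1) ∣ lam ^ k := by
        rw [← hP]
        exact addOrderOf_dvd_of_nsmul_eq_zero h2
      have h4 := Nat.le_of_dvd (pow_pos hlam.pos k) h3
      have h5 : lam ^ k < lam ^ (k + 1) := Nat.pow_lt_pow_right hlam.one_lt (by omega)
      omega
    · have : j = k + 2 := by omega
      rw [hjeq, this]

/-- **E-DIV**, unconditional (every prime, in fact). -/
theorem exactOrderU : ExactOrderStatement := by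
  intro W hΔ lam hlam _ k
  rcases Nat.eq_zero_or_pos k with hk | hk
  · subst hk
    refine ⟨0, by simp, fun m _ => ?_⟩
    simp
  · obtain ⟨j, rfl⟩ : ∃ j, k = j + 1 := ⟨k - 1, by omega⟩
    obtain ⟨P, hP⟩ := ec_exists_order_pow W hΔ hlam j
    refine ⟨P, ?_, fun m hm => ?_⟩
    · rw [← hP]
      exact addOrderOf_nsmul_eq_zero P
    · rw [← hP]
      exact addOrderOf_dvd_of_nsmul_eq_zero hm

/-- **E-DIV** in the shape of row 1099. -/
theorem exactOrder (_hMult : MultFormulaStatement) : ExactOrderStatement :=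
  exactOrderU

end Fermat.Agent.H10.S58
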